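import Fermat.Agent.LinearGrowth.Conjugation

/-!
# Blocks of a nilpotent representation

When conjugation is unipotent on the span of the `d - 1` the generalised eigenspaces of every
element are invariant, so the space is a sum of invariant subspaces on each of which the group
acts by a character times a unipotent representation.
-/

set_option autoImplicit false

noncomputable section

open FA.TitsAlternative
open scoped commutatorElement

namespace FA.LinearGrowth

variable {K : Type*} [Field K] {V : Type*} [AddCommGroup V] [Module K V]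
  [FiniteDimensional K V] {H : Type*} [Group H] (ρ : H →* Module.End K V)

omit [FiniteDimensional K V] in
/-- An element of the span keeps the generalised eigenspaces. -/
theorem mem_maxGen_of_ad {g : H} {a : K} {Y : Module.End K V} {x : V} {p : ℕ}
    (hY : ((conjMap ρ g - 1) ^ p) Y = 0) (hx : x ∈ (ρ g).maxGenEigenspace a) :
    Y x ∈ (ρ g).maxGenEigenspace a := by
  obtain ⟨q, hq⟩ := (Module.End.mem_maxGenEigenspace _ _ _).1 hx
  refine (Module.End.mem_maxGenEigenspace _ _ _).2 ⟨p + q, ?_⟩
  clear hx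
  induction hn : p + q generalizing p q Y x with
  | zero =>
    obtain ⟨rfl, rfl⟩ : p = 0 ∧ q = 0 := ⟨by omega, by omega⟩
    rw [pow_zero, Module.End.one_apply] at hY ⊢
    rw [hY, LinearMap.zero_apply]
  | succ c ih =>
    rcases p with _ | p
    · rw [pow_zero, Module.End.one_apply] at hY
      rw [hY, LinearMap.zero_apply, map_zero]
    rcases q with _ | q
    · rw [pow_zero, Module.End.one_apply] at hq
      rw [hq, map_zero, map_zero]
    have h1 : (ρ g - a • 1 : Module.End K V) (Y x) =
        ((conjMap ρ g - 1) Y) (ρ g x) + Y ((ρ g - a • 1 : Module.End K V) x) := by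
      rw [LinearMap.sub_apply (conjMap ρ g), Module.End.one_apply, LinearMap.sub_apply,
        LinearMap.sub_apply, LinearMap.sub_apply, conjMap_apply, Module.End.mul_apply,
        Module.End.mul_apply, ← Module.End.mul_apply (ρ g⁻¹), rep_inv_mul, Module.End.one_apply,
        LinearMap.smul_apply, LinearMap.smul_apply, Module.End.one_apply, Module.End.one_apply,
        map_sub, map_smul]
      abel
    rw [pow_succ, Module.End.mul_apply, h1, map_add]
    have hgx : ((ρ g - a • 1) ^ (q + 1)) (ρ g x) = 0 := by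
      have hc : Commute ((ρ g - a • 1) ^ (q + 1)) (ρ g) :=
        (((Commute.refl _).sub_left ((Commute.one_left _).smul_left a)).pow_left _)
      rw [← Module.End.mul_apply, hc.eq, Module.End.mul_apply, hq, map_zero]
    rw [ih (by rwa [pow_succ, Module.End.mul_apply] at hY) (q + 1) hgx (by omega),
      ih hY q (by rwa [pow_succ, Module.End.mul_apply] at hq) (by omega), add_zero]

omit [FiniteDimensional K V] in
theorem mem_maxGen_derived (hA : IsAdUnipotent ρ) {g d : H} (hd : d ∈ commutator H) {a : K} {x : V}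
    (hx : x ∈ (ρ g).maxGenEigenspace a) : ρ d x ∈ (ρ g).maxGenEigenspace a := by
  obtain ⟨p, hp⟩ := hA g _ (rep_sub_one_mem_span ρ hd)
  have h := add_mem (mem_maxGen_of_ad ρ hp hx) hx
  simpa using h

omit [FiniteDimensional K V] in
/-- The flag of the derived group is invariant. -/
theorem flag_invariant (i : ℕ) (g : H) {x : V} (hx : x ∈ flag ρ (commutator H) i) :
    ρ g x ∈ flag ρ (commutator H) i := by
  induction i generalizing x with
  | zero => rw [flag, Submodule.mem_bot] at hx ⊢; rw [hx, map_zero]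
  | succ i ih =>
    rw [mem_flag_succ] at hx ⊢
    intro a ha
    have h := ih (hx _ (conjMap_mem_span ρ g⁻¹ ha))
    rwa [← Module.End.mul_apply, conjMap_apply, inv_inv, ← mul_assoc, ← mul_assoc, rep_mul_inv,
      one_mul, Module.End.mul_apply] at h

variable [CharZero K] [IsAlgClosed K] (hD : ∀ d ∈ commutator H, IsNilpotent (ρ d - 1))

omit [IsAlgClosed K] in
include hD in
theorem maxGen_le_maxGen_mul (hA : IsAdUnipotent ρ) {g d : H} (hd : d ∈ commutator H) (a : K) :
    (ρ g).maxGenEigenspace a ≤ (ρ (d * g)).maxGenEigenspace a := by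
  intro x hx
  refine (Module.End.mem_maxGenEigenspace _ _ _).2 ?_
  set W := (ρ g).maxGenEigenspace a
  have hgW : ∀ y ∈ W, ρ g y ∈ W := fun y hy =>
    Module.End.mapsTo_maxGenEigenspace_of_comm (Commute.refl (ρ g)) a hy
  obtain ⟨N, hN⟩ := exists_flag_eq_top ρ hD
  have key : ∀ i, ∀ y ∈ W, y ∈ flag ρ (commutator H) i →
      ∃ k : ℕ, ((ρ (d * g) - a • 1) ^ k) y = 0 := by
    intro i
    induction i with
    | zero => exact fun y _ hy => ⟨0, by simpa [flag] using hy⟩
    | succ i ih =>
      intro y hy hyF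
      obtain ⟨q, hq⟩ := (Module.End.mem_maxGenEigenspace _ _ _).1 hy
      induction q generalizing y with
      | zero => exact ⟨0, by simpa using hq⟩
      | succ q ihq =>
        set y₁ := (ρ g - a • 1 : Module.End K V) y
        set y₂ := (ρ d - 1 : Module.End K V) (ρ g y)
        have hy₁ : y₁ ∈ W := by
          simpa [y₁] using sub_mem (hgW y hy) (Submodule.smul_mem W a hy)
        have hy₁F : y₁ ∈ flag ρ (commutator H) (i + 1) := by
          simpa [y₁] using sub_mem (flag_invariant ρ _ g hyF) (Submodule.smul_mem _ a hyF)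
        have hy₂ : y₂ ∈ W := by
          show (ρ d - 1 : Module.End K V) (ρ g y) ∈ W
          rw [LinearMap.sub_apply, Module.End.one_apply]
          exact sub_mem (mem_maxGen_derived ρ hA hd (hgW y hy)) (hgW y hy)
        have hy₂F : y₂ ∈ flag ρ (commutator H) i :=
          (mem_flag_succ _ _ _ _).1 (flag_invariant ρ _ g hyF) _ (rep_sub_one_mem_span ρ hd)
        obtain ⟨k₁, hk₁⟩ := ihq y₁ hy₁ hy₁F (by rwa [pow_succ, Module.End.mul_apply] at hq)
        obtain ⟨k₂, hk₂⟩ := ih y₂ hy₂ hy₂F
        refine ⟨k₁ + k₂ + 1, ?_⟩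
        have h1 : (ρ (d * g) - a • 1 : Module.End K V) y = y₁ + y₂ := by
          simp [y₁, y₂, map_mul]
        rw [pow_succ, Module.End.mul_apply, h1, map_add,
          Module.End.pow_map_zero_of_le (by omega) hk₁,
          Module.End.pow_map_zero_of_le (by omega) hk₂,
          add_zero]
  exact key N x hx (hN ▸ Submodule.mem_top)

omit [IsAlgClosed K] in
include hD in
/-- The generalised eigenspaces are invariant. -/
theorem maxGen_invariant (hA : IsAdUnipotent ρ) (g h : H) {a : K} {x : V}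
    (hx : x ∈ (ρ g).maxGenEigenspace a) : ρ h x ∈ (ρ g).maxGenEigenspace a := by
  have hd : h⁻¹ * g * h * g⁻¹ ∈ commutator H := by
    have h1 := Subgroup.commutator_mem_commutator (Subgroup.mem_top h⁻¹) (Subgroup.mem_top g)
    rwa [commutatorElement_def, inv_inv] at h1
  obtain ⟨k, hk⟩ := (Module.End.mem_maxGenEigenspace _ _ _).1
    (maxGen_le_maxGen_mul ρ hD hA hd a hx)
  rw [inv_mul_cancel_right] at hk
  refine (Module.End.mem_maxGenEigenspace _ _ _).2 ⟨k, ?_⟩
  have hc : ∀ k : ℕ, (ρ g - a • 1) ^ k * ρ h = ρ h * (ρ (h⁻¹ * g * h) - a • 1) ^ k := fun k => by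
    induction k with
    | zero => simp
    | succ k ih =>
      rw [pow_succ, mul_assoc, show (ρ g - a • 1) * ρ h = ρ h * (ρ (h⁻¹ * g * h) - a • 1) by
        rw [sub_mul, mul_sub, ← map_mul, ← map_mul, smul_mul_assoc, mul_smul_comm, one_mul,
          mul_one]
        simp [mul_assoc], ← mul_assoc, ih, mul_assoc, ← pow_succ]
  rw [← Module.End.mul_apply, hc, Module.End.mul_apply, hk, map_zero]

/-- An invariant subspace on which every element has one eigenvalue. -/
def IsBlock (P : Submodule K V) : Prop :=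
  (∀ g, ∀ x ∈ P, ρ g x ∈ P) ∧ ∀ g, ∃ a, P ≤ (ρ g).maxGenEigenspace a

include hD in
/-- **The space is a sum of blocks.** -/
theorem exists_blocks (hA : IsAdUnipotent ρ) :
    ∃ Bl : Set (Submodule K V), Bl.Finite ∧ (∀ P ∈ Bl, IsBlock ρ P) ∧ sSup Bl = ⊤ := by
  suffices h : ∀ m, ∀ U : Submodule K V, Module.finrank K U ≤ m → (∀ g, ∀ x ∈ U, ρ g x ∈ U) →
      ∃ Bl : Set (Submodule K V), Bl.Finite ∧ (∀ P ∈ Bl, IsBlock ρ P) ∧ sSup Bl = U from
    h _ ⊤ le_rfl fun _ _ _ => Submodule.mem_top
  intro m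
  induction m with
  | zero =>
    intro U hU _
    refine ⟨∅, Set.finite_empty, by simp, ?_⟩
    rw [sSup_empty]
    exact (Submodule.finrank_eq_zero.1 (Nat.le_zero.1 hU)).symm
  | succ m ih =>
    intro U hU hinv
    by_cases hone : ∀ g, ∃ a, U ≤ (ρ g).maxGenEigenspace a
    · exact ⟨{U}, Set.finite_singleton U, fun P hP => hP ▸ ⟨hinv, hone⟩, sSup_singleton⟩
    push Not at hone
    obtain ⟨g, hg⟩ := hone
    set S : Set K := {a | U ⊓ (ρ g).maxGenEigenspace a ≠ ⊥}
    have hS : S.Finite := by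
      refine (Module.End.finite_hasEigenvalue (ρ g)).subset fun a ha => ?_
      refine (Module.End.hasUnifEigenvalue_iff_hasUnifEigenvalue_one WithTop.top_pos).1 ?_
      exact fun h => ha (le_bot_iff.1 (inf_le_right.trans h.le))
    have hsmall : ∀ a, Module.finrank K ↥(U ⊓ (ρ g).maxGenEigenspace a) ≤ m := fun a =>
      Nat.le_of_lt_succ ((Submodule.finrank_lt_finrank_of_lt
        (inf_lt_left.2 (hg a))).trans_le hU)
    choose Bl hBl hblock hsup using fun a => ih (U ⊓ (ρ g).maxGenEigenspace a) (hsmall a)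
      fun h x hx => ⟨hinv h x hx.1, maxGen_invariant ρ hD hA g h hx.2⟩
    refine ⟨⋃ a ∈ S, Bl a, hS.biUnion fun a _ => hBl a, fun P hP => ?_, ?_⟩
    · obtain ⟨a, -, hP⟩ := Set.mem_iUnion₂.1 hP
      exact hblock a P hP
    · refine le_antisymm (sSup_le fun P hP => ?_) ?_
      · obtain ⟨a, -, hP⟩ := Set.mem_iUnion₂.1 hP
        exact (le_sSup hP).trans ((hsup a).le.trans inf_le_left)
      · have h1 : U = ⨆ a, U ⊓ (ρ g).maxGenEigenspace a := by
          have h2 := Submodule.inf_iSup_genEigenspace (f := ρ g) (p := U) (fun x hx => hinv g x hx)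
            (k := ⊤)
          rw [show (⨆ μ, (ρ g).genEigenspace μ ⊤) = ⊤ from (ρ g).iSup_maxGenEigenspace_eq_top,
            inf_top_eq] at h2
          exact h2
        refine h1.le.trans (iSup_le fun a => ?_)
        by_cases ha : a ∈ S
        · exact (hsup a).ge.trans (sSup_le_sSup fun P hP => Set.mem_iUnion₂.2 ⟨a, ha, hP⟩)
        · rw [show U ⊓ (ρ g).maxGenEigenspace a = ⊥ from not_not.1 ha]
          exact bot_le

omit [CharZero K] in
/-- A common eigenvector in a nonzero invariant subspace. -/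
theorem exists_common_eigenvector {U : Submodule K V} (hU : U ≠ ⊥)
    (hinv : ∀ g, ∀ x ∈ U, ρ g x ∈ U) {N : ℕ} (hN : flag ρ (commutator H) N = ⊤) :
    ∃ v ∈ U, v ≠ 0 ∧ ∀ g, ∃ c : K, ρ g v = c • v := by
  classical
  have hex : ∃ i, U ⊓ flag ρ (commutator H) i ≠ ⊥ := ⟨N, by rwa [hN, inf_top_eq]⟩
  set i := Nat.find hex with hi
  have hi0 := Nat.find_spec hex
  set Z₀ := U ⊓ flag ρ (commutator H) i
  obtain ⟨Z, ⟨hZ0, hZle, hZinv⟩, hmin⟩ := IsArtinian.set_has_minimal
    {Z : Submodule K V | Z ≠ ⊥ ∧ Z ≤ Z₀ ∧ ∀ g, ∀ x ∈ Z, ρ g x ∈ Z}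
    ⟨Z₀, hi0, le_rfl, fun g x hx => ⟨hinv g x hx.1, flag_invariant ρ _ g hx.2⟩⟩
  have hfix : ∀ d ∈ commutator H, ∀ x ∈ Z, ρ d x = x := by
    intro d hd x hx
    have hx' : x ∈ U ∧ x ∈ flag ρ (commutator H) i := hZle hx
    have hU' : (ρ d - 1 : Module.End K V) x ∈ U := by simpa using sub_mem (hinv d x hx'.1) hx'.1
    rcases eq_or_ne i 0 with h0 | h0
    · rw [h0, flag, Submodule.mem_bot] at hx'
      rw [hx'.2, map_zero]
    obtain ⟨j, hj⟩ := Nat.exists_eq_succ_of_ne_zero h0
    have hz : (ρ d - 1 : Module.End K V) x = 0 := by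
      by_contra hne
      refine Nat.find_min hex (show j < Nat.find hex by omega) fun hbot => hne ?_
      refine (Submodule.eq_bot_iff _).1 hbot _ ⟨hU', ?_⟩
      rw [hj] at hx'
      exact (mem_flag_succ _ _ _ _).1 hx'.2 _ (rep_sub_one_mem_span ρ hd)
    simpa [sub_eq_zero] using hz
  obtain ⟨v, hvZ, hv0⟩ := Submodule.exists_mem_ne_zero_of_ne_bot hZ0
  refine ⟨v, (hZle hvZ).1, hv0, fun g => ?_⟩
  have : Nontrivial Z := Submodule.nontrivial_iff_ne_bot.2 hZ0
  obtain ⟨c, hc⟩ := Module.End.exists_eigenvalue ((ρ g).restrict (hZinv g))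
  obtain ⟨w, hw⟩ := hc.exists_hasEigenvector
  have hwc : ρ g w = c • (w : V) :=
    congrArg Subtype.val (Module.End.mem_eigenspace_iff.1 hw.1)
  set E := Z ⊓ (ρ g).eigenspace c
  refine ⟨c, Module.End.mem_eigenspace_iff.1 ?_⟩
  suffices hE : E = Z from (hE.ge hvZ).2
  refine eq_of_le_of_not_lt inf_le_left (hmin E ⟨?_, inf_le_left.trans hZle, fun h x hx =>
    ⟨hZinv h x hx.1, ?_⟩⟩)
  · refine (Submodule.ne_bot_iff _).2 ⟨w, ⟨w.2, Module.End.mem_eigenspace_iff.2 hwc⟩, ?_⟩
    exact fun h0 => hw.2 (Subtype.ext h0)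
  · have hd : (h * g)⁻¹ * (g * h) ∈ commutator H := by
      have h1 := Subgroup.commutator_mem_commutator (Subgroup.mem_top g⁻¹) (Subgroup.mem_top h⁻¹)
      rwa [commutatorElement_def, inv_inv, inv_inv, mul_assoc, ← mul_inv_rev] at h1
    show ρ h x ∈ (ρ g).eigenspace c
    rw [Module.End.mem_eigenspace_iff, ← Module.End.mul_apply, ← map_mul,
      ← mul_inv_cancel_left (h * g) (g * h), map_mul, Module.End.mul_apply,
      hfix _ hd x hx.1, map_mul, Module.End.mul_apply, Module.End.mem_eigenspace_iff.1 hx.2,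
      map_smul]

include hD in
/-- **On a block a character times a unipotent representation.** -/
theorem IsBlock.exists_char {P : Submodule K V} (hP : IsBlock ρ P) :
    ∃ (χ : H →* K) (u : H →* Module.End K P),
      (∀ g, ∀ x : P, ρ g x = χ g • (u g x : V)) ∧ ∀ g, IsNilpotent (u g - 1) := by
  rcases eq_or_ne P ⊥ with rfl | hP0
  · refine ⟨1, 1, fun g x => ?_, fun g => ⟨1, by simp⟩⟩
    obtain ⟨x, hx⟩ := x
    rw [Submodule.mem_bot] at hx
    subst hx
    simp
  obtain ⟨N, hN⟩ := exists_flag_eq_top ρ hD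
  obtain ⟨v, hvP, hv0, hv⟩ := exists_common_eigenvector ρ hP0 hP.1 hN
  choose c hc using hv
  let χ : H →* K :=
    { toFun := c
      map_one' := smul_left_injective K hv0
        (show c 1 • v = (1 : K) • v by rw [← hc, map_one, Module.End.one_apply, one_smul])
      map_mul' := fun g h => smul_left_injective K hv0 (show c (g * h) • v = (c g * c h) • v by
        rw [← hc, map_mul, Module.End.mul_apply, hc, map_smul, hc, smul_smul, mul_comm (c g)]) }
  have hχ0 : ∀ g, χ g ≠ 0 := fun g h0 => by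
    have h1 : χ g * χ g⁻¹ = 1 := by rw [← map_mul, mul_inv_cancel, map_one]
    rw [h0, zero_mul] at h1
    exact zero_ne_one h1
  have hgen : ∀ g, P ≤ (ρ g).maxGenEigenspace (χ g) := fun g => by
    obtain ⟨a, ha⟩ := hP.2 g
    obtain ⟨k, hk⟩ := (Module.End.mem_maxGenEigenspace _ _ _).1 (ha hvP)
    have hpow : ∀ k : ℕ, ((ρ g - a • 1) ^ k) v = (χ g - a) ^ k • v := fun k => by
      induction k with
      | zero => simp
      | succ k ih =>
        rw [pow_succ, Module.End.mul_apply, show (ρ g - a • 1 : Module.End K V) v = (χ g - a) • v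
          by simp [sub_smul, hc, χ], map_smul, ih, smul_smul, ← pow_succ']
    rw [hpow, smul_eq_zero] at hk
    rwa [sub_eq_zero.1 (pow_eq_zero_iff'.1 (hk.resolve_right hv0)).1]
  let u : H →* Module.End K P :=
    { toFun := fun g => (χ g)⁻¹ • (ρ g).restrict (hP.1 g)
      map_one' := by ext x; simp
      map_mul' := fun g h => LinearMap.ext fun x => Subtype.ext (by
        show (χ (g * h))⁻¹ • ρ (g * h) (x : V) = (χ g)⁻¹ • ρ g ((χ h)⁻¹ • ρ h (x : V))
        rw [map_mul χ, map_mul ρ, mul_inv, Module.End.mul_apply, map_smul, smul_smul]) }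
  refine ⟨χ, u, fun g x => ?_, fun g => ?_⟩
  · simp [u, smul_smul, mul_inv_cancel₀ (hχ0 g)]
  · have hnil : IsNilpotent ((ρ g).restrict (hP.1 g) - χ g • 1) := by
      refine ⟨Module.finrank K V, LinearMap.ext fun x => Subtype.ext ?_⟩
      have hpow : ∀ (k : ℕ) (x : P), ((((ρ g).restrict (hP.1 g) - χ g • 1) ^ k) x : V) =
          ((ρ g - χ g • 1) ^ k) (x : V) := fun k => by
        induction k with
        | zero => exact fun x => rfl
        | succ k ih =>
          intro x
          rw [pow_succ, Module.End.mul_apply, ih, pow_succ, Module.End.mul_apply]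
          rfl
      rw [hpow]
      have h := hgen g x.2
      rw [Module.End.maxGenEigenspace_eq_genEigenspace_finrank, Module.End.mem_genEigenspace_nat,
        LinearMap.mem_ker] at h
      simpa using h
    have h1 : u g - 1 = (χ g)⁻¹ • ((ρ g).restrict (hP.1 g) - χ g • 1) := by
      rw [smul_sub, smul_smul, inv_mul_cancel₀ (hχ0 g), one_smul]
      rfl
    rw [h1]
    exact hnil.smul _

end FA.LinearGrowth

end
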