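import Fermat.Agent.TitsAlternative.Unipotent
import Mathlib.LinearAlgebra.Eigenspace.Triangularizable
import Mathlib.LinearAlgebra.Quotient.Basic

/-!
# The conjugation action on a unipotent derived group

For a representation with unipotent derived group, conjugation acts on the span `J` of the `d - 1`.
Either it is unipotent there, or some conjugation has an eigenvalue `α` other than `1` on `J / J²`;
then `α` is a quotient of eigenvalues and a form multiplies by `α` under the conjugation.
-/

set_option autoImplicit false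

noncomputable section

open FA.TitsAlternative
open scoped commutatorElement

namespace FA.LinearGrowth

variable {K : Type*} [Field K] {V : Type*} [AddCommGroup V] [Module K V]
  {H : Type*} [Group H] (ρ : H →* Module.End K V)

theorem rep_inv_mul (g : H) : ρ g⁻¹ * ρ g = 1 := by rw [← map_mul, inv_mul_cancel, map_one]

theorem rep_mul_inv (g : H) : ρ g * ρ g⁻¹ = 1 := by rw [← map_mul, mul_inv_cancel, map_one]

/-- Conjugation by an element. -/
def conjMap (g : H) : Module.End K (Module.End K V) :=
  (LinearMap.mulLeft K (ρ g)).comp (LinearMap.mulRight K (ρ g⁻¹))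

theorem conjMap_apply (g : H) (x : Module.End K V) : conjMap ρ g x = ρ g * x * ρ g⁻¹ := by
  simp [conjMap, mul_assoc]

theorem conjMap_mul_apply (g : H) (x y : Module.End K V) :
    conjMap ρ g (x * y) = conjMap ρ g x * conjMap ρ g y := by
  simp only [conjMap_apply, mul_assoc]
  rw [← mul_assoc (ρ g⁻¹) (ρ g), rep_inv_mul, one_mul]

theorem conjMap_rep_sub_one (g d : H) : conjMap ρ g (ρ d - 1) = ρ (g * d * g⁻¹) - 1 := by
  rw [conjMap_apply, mul_sub, sub_mul, mul_one, rep_mul_inv, map_mul, map_mul]

/-- The span of the `d - 1` for the derived group. -/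
abbrev span : Submodule K (Module.End K V) := augment ρ (commutator H)

theorem rep_sub_one_mem_span {d : H} (hd : d ∈ commutator H) : ρ d - 1 ∈ span ρ :=
  Submodule.subset_span ⟨⟨d, hd⟩, rfl⟩

theorem conjMap_mem_span (g : H) {x : Module.End K V} (hx : x ∈ span ρ) :
    conjMap ρ g x ∈ span ρ := by
  induction hx using Submodule.span_induction with
  | mem x hx =>
    obtain ⟨d, rfl⟩ := hx
    rw [conjMap_rep_sub_one]
    exact rep_sub_one_mem_span ρ ((inferInstance : (commutator H).Normal).conj_mem _ d.2 g)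
  | zero => rw [map_zero]; exact zero_mem _
  | add x y _ _ hx hy => rw [map_add]; exact add_mem hx hy
  | smul c x _ hx => rw [map_smul]; exact Submodule.smul_mem _ c hx

theorem conjMap_mem_pow (g : H) (i : ℕ) {x : Module.End K V} (hx : x ∈ span ρ ^ (i + 1)) :
    conjMap ρ g x ∈ span ρ ^ (i + 1) := by
  induction i generalizing x with
  | zero => rw [pow_one] at hx ⊢; exact conjMap_mem_span ρ g hx
  | succ i ih =>
    rw [pow_succ] at hx ⊢
    refine Submodule.mul_induction_on hx (fun a ha b hb => ?_) fun a b ha hb => ?_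
    · rw [conjMap_mul_apply]
      exact Submodule.mul_mem_mul (ih ha) (conjMap_mem_span ρ g hb)
    · rw [map_add]
      exact add_mem ha hb

theorem conjSubOne_mem_pow (g : H) (i m : ℕ) {x : Module.End K V} (hx : x ∈ span ρ ^ (i + 1)) :
    ((conjMap ρ g - 1) ^ m) x ∈ span ρ ^ (i + 1) := by
  induction m generalizing x with
  | zero => exact hx
  | succ m ih =>
    rw [pow_succ (conjMap ρ g - 1), Module.End.mul_apply]
    exact ih (sub_mem (conjMap_mem_pow ρ g i hx) hx)

/-- The Leibniz rule. -/
theorem conjSubOne_mul_mem (g : H) (i a b : ℕ) {x y : Module.End K V}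
    (hx : x ∈ span ρ ^ (i + 1)) (hy : y ∈ span ρ)
    (ha : ((conjMap ρ g - 1) ^ a) x ∈ span ρ ^ (i + 2))
    (hb : ((conjMap ρ g - 1) ^ b) y ∈ span ρ ^ 2) :
    ((conjMap ρ g - 1) ^ (a + b)) (x * y) ∈ span ρ ^ (i + 3) := by
  induction hab : a + b generalizing a b x y with
  | zero =>
    obtain ⟨rfl, rfl⟩ : a = 0 ∧ b = 0 := ⟨by omega, by omega⟩
    rw [pow_succ (span ρ) (i + 2)]
    exact Submodule.mul_mem_mul ha hy
  | succ c ih =>
    have hT : (conjMap ρ g - 1) (x * y) =
        ((conjMap ρ g - 1) x) * conjMap ρ g y + x * ((conjMap ρ g - 1) y) := by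
      rw [LinearMap.sub_apply, LinearMap.sub_apply, LinearMap.sub_apply, Module.End.one_apply,
        Module.End.one_apply, Module.End.one_apply, conjMap_mul_apply, sub_mul, mul_sub]
      abel
    rw [pow_succ (conjMap ρ g - 1), Module.End.mul_apply, hT, map_add]
    refine add_mem ?_ ?_
    · -- the first factor
      rcases a with _ | a
      · refine conjSubOne_mem_pow ρ g (i + 2) c ?_
        rw [pow_succ (span ρ) (i + 2)]
        exact Submodule.mul_mem_mul
          (sub_mem (conjMap_mem_pow ρ g (i + 1) ha) ha)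
          (conjMap_mem_span ρ g hy)
      · refine ih a b (sub_mem (conjMap_mem_pow ρ g i hx) hx) (conjMap_mem_span ρ g hy)
          (by rwa [pow_succ (conjMap ρ g - 1), Module.End.mul_apply] at ha) ?_ (by omega)
        have hcomm : Commute ((conjMap ρ g - 1) ^ b) (conjMap ρ g) :=
          (((Commute.refl _).sub_left (Commute.one_left _)).pow_left b)
        rw [← Module.End.mul_apply, hcomm.eq, Module.End.mul_apply]
        exact conjMap_mem_pow ρ g 1 hb
    · rcases b with _ | b
      · refine conjSubOne_mem_pow ρ g (i + 2) c ?_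
        rw [show i + 2 + 1 = i + 1 + 2 from rfl, pow_add]
        exact Submodule.mul_mem_mul hx (sub_mem (conjMap_mem_pow ρ g 1 hb) hb)
      · exact ih a b hx (sub_mem (conjMap_mem_span ρ g hy) hy) ha
          (by rwa [pow_succ (conjMap ρ g - 1), Module.End.mul_apply] at hb) (by omega)

variable [IsAlgClosed K] [FiniteDimensional K V] [CharZero K]

/-- A form on the span that a conjugation multiplies by a number other than `1`. -/
def HasSlope : Prop :=
  ∃ (g : H) (α : K) (l : Module.End K V →ₗ[K] K), α ≠ 1 ∧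
    (∃ x ∈ span ρ, x ≠ 0 ∧ conjMap ρ g x = α • x) ∧
    (∀ x ∈ span ρ ^ 2, l x = 0) ∧ (∀ x ∈ span ρ, l (conjMap ρ g x) = α * l x) ∧
      ∃ d ∈ commutator H, l (ρ d - 1) ≠ 0

/-- Conjugation is unipotent on the span. -/
def IsAdUnipotent : Prop :=
  ∀ (g : H), ∀ x ∈ span ρ, ∃ k : ℕ, ((conjMap ρ g - 1) ^ k) x = 0

omit [CharZero K] in
theorem exists_kill_mod_sq (hs : ¬ HasSlope ρ) (g : H) {x : Module.End K V} (hx : x ∈ span ρ) :
    ∃ k : ℕ, ((conjMap ρ g - 1) ^ k) x ∈ span ρ ^ 2 := by
  set J := span ρ
  set A : Module.End K J := (conjMap ρ g).restrict fun x hx => conjMap_mem_span ρ g hx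
  set N : Submodule K J := (J ^ 2).comap J.subtype
  set T : Module.End K (J ⧸ N) := N.mapQ N A fun y hy => conjMap_mem_pow ρ g 1 hy
  have hT : ∀ y : J, T (Submodule.Quotient.mk y) = Submodule.Quotient.mk (A y) := fun y => rfl
  have hev : ∀ α, T.HasEigenvalue α → α = 1 := by
    intro α hα
    by_contra hα1
    have hlt : LinearMap.range (T - α • 1) < ⊤ := by
      refine lt_top_iff_ne_top.2 fun htop => ?_
      have hinj : Function.Injective (T - α • 1 : Module.End K (J ⧸ N)) :=
        LinearMap.injective_iff_surjective.2 (LinearMap.range_eq_top.1 htop)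
      obtain ⟨v, hv, hv0⟩ := hα.exists_hasEigenvector
      rw [Module.End.mem_eigenspace_iff] at hv
      exact hv0 (hinj (by simp [hv]))
    obtain ⟨m, hm0, hm⟩ := Submodule.exists_le_ker_of_lt_top _ hlt
    obtain ⟨l, hl⟩ := (m ∘ₗ N.mkQ).exists_extend
    have hl' : ∀ y : J, l y = m (Submodule.Quotient.mk y) := fun y => LinearMap.congr_fun hl y
    have hle : ∀ y : J, l (conjMap ρ g y) = α * l y := fun y => by
      have h1 : m ((T - α • 1) (Submodule.Quotient.mk y)) = 0 :=
        hm (LinearMap.mem_range_self _ _)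
      rw [LinearMap.sub_apply, LinearMap.smul_apply, Module.End.one_apply, hT, map_sub, map_smul,
        ← hl', ← hl', sub_eq_zero] at h1
      exact h1
    have hd : ∃ d ∈ commutator H, l (ρ d - 1) ≠ 0 := by
      by_contra! h
      refine hm0 (Submodule.linearMap_qext _ (LinearMap.ext fun y => ?_))
      show m (Submodule.Quotient.mk y) = 0
      rw [← hl']
      obtain ⟨y, hy⟩ := y
      induction hy using Submodule.span_induction with
      | mem z hz =>
        obtain ⟨d, rfl⟩ := hz
        exact h d d.2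
      | zero => exact map_zero l
      | add a b _ _ ha hb => exact (map_add l a b).trans (by rw [ha, hb, add_zero])
      | smul c a _ ha => exact (map_smul l c a).trans (by rw [ha, smul_zero])
    obtain ⟨x₀, hx₀, hx₀'⟩ : ∃ z : J, z ≠ 0 ∧ A z = α • z := by
      by_contra! h
      have hinj : Function.Injective (A - α • 1 : Module.End K J) :=
        (injective_iff_map_eq_zero _).2 fun z hz => by
          by_contra hz0
          exact h z hz0 (by simpa [sub_eq_zero] using hz)
      obtain ⟨d, hd, hne⟩ := hd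
      obtain ⟨z, hz⟩ := LinearMap.injective_iff_surjective.1 hinj ⟨_, rep_sub_one_mem_span ρ hd⟩
      refine hne ?_
      have h2 : conjMap ρ g z - α • (z : Module.End K V) = ρ d - 1 := congrArg Subtype.val hz
      rw [← h2, map_sub, map_smul, hle, smul_eq_mul, sub_self]
    exact hs ⟨g, α, l, hα1,
      ⟨x₀, x₀.2, fun h0 => hx₀ (Subtype.ext h0), congrArg Subtype.val hx₀'⟩,
      fun z hz => by
        have hzJ : z ∈ J := by
          rw [← pow_one J]
          exact augment_pow_le ρ _ le_rfl one_le_two hz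
        refine (hl' ⟨z, hzJ⟩).trans ?_
        rw [(Submodule.Quotient.mk_eq_zero N).2 hz, map_zero],
      fun z hz => hle ⟨z, hz⟩, hd⟩
  have htop : T.maxGenEigenspace 1 = ⊤ := by
    rw [eq_top_iff, ← T.iSup_maxGenEigenspace_eq_top]
    refine iSup_le fun α => ?_
    by_cases h : T.maxGenEigenspace α = ⊥
    · exact h.le.trans bot_le
    rw [hev α ((Module.End.hasUnifEigenvalue_iff_hasUnifEigenvalue_one WithTop.top_pos).1 h)]
  obtain ⟨k, hk⟩ := (Module.End.mem_maxGenEigenspace _ _ _).1
    (htop ▸ Submodule.mem_top : Submodule.Quotient.mk (⟨x, hx⟩ : J) ∈ T.maxGenEigenspace 1)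
  rw [one_smul] at hk
  refine ⟨k, ?_⟩
  have hpow : ∀ (k : ℕ), ∀ y : J, ∃ y' : J, (y' : Module.End K V) = ((conjMap ρ g - 1) ^ k) y ∧
      ((T - 1) ^ k) (Submodule.Quotient.mk y) = Submodule.Quotient.mk y' := fun k => by
    induction k with
    | zero => exact fun y => ⟨y, rfl, rfl⟩
    | succ k ih =>
      intro y
      obtain ⟨y', h1, h2⟩ := ih (A y - y)
      refine ⟨y', ?_, ?_⟩
      · rw [h1, pow_succ, Module.End.mul_apply]
        rfl
      · rw [pow_succ, Module.End.mul_apply, ← h2]
        rfl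
  obtain ⟨y', h1, h2⟩ := hpow k ⟨x, hx⟩
  rw [hk] at h2
  rw [← show (y' : Module.End K V) = ((conjMap ρ g - 1) ^ k) x from h1]
  exact (Submodule.Quotient.mk_eq_zero N).1 h2.symm

/-- **Either a slope or a unipotent conjugation.** -/
theorem isAdUnipotent_of_not_hasSlope (hD : ∀ d ∈ commutator H, IsNilpotent (ρ d - 1))
    (hs : ¬ HasSlope ρ) : IsAdUnipotent ρ := by
  intro g
  have hstep : ∀ i, ∀ x ∈ span ρ ^ (i + 1),
      ∃ k : ℕ, ((conjMap ρ g - 1) ^ k) x ∈ span ρ ^ (i + 2) := fun i => by
    induction i with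
    | zero =>
      intro x hx
      rw [pow_one] at hx
      exact exists_kill_mod_sq ρ hs g hx
    | succ i ih =>
      intro x hx
      rw [pow_succ] at hx
      refine Submodule.mul_induction_on hx (fun y hy z hz => ?_) fun y z hy hz => ?_
      · obtain ⟨a, ha⟩ := ih y hy
        obtain ⟨b, hb⟩ := exists_kill_mod_sq ρ hs g hz
        exact ⟨a + b, conjSubOne_mul_mem ρ g i a b hy hz ha hb⟩
      · obtain ⟨a, ha⟩ := hy
        obtain ⟨b, hb⟩ := hz
        refine ⟨a + b, ?_⟩
        rw [map_add]
        refine add_mem ?_ ?_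
        · rw [add_comm a b, pow_add (conjMap ρ g - 1), Module.End.mul_apply]
          exact conjSubOne_mem_pow ρ g _ b ha
        · rw [pow_add (conjMap ρ g - 1), Module.End.mul_apply]
          exact conjSubOne_mem_pow ρ g _ a hb
  have hdown : ∀ i, ∀ x ∈ span ρ, ∃ k : ℕ, ((conjMap ρ g - 1) ^ k) x ∈ span ρ ^ (i + 1) :=
      fun i => by
    induction i with
    | zero => exact fun x hx => ⟨0, by rwa [pow_one]⟩
    | succ i ih =>
      intro x hx
      obtain ⟨k, hk⟩ := ih x hx
      obtain ⟨k', hk'⟩ := hstep i _ hk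
      exact ⟨k' + k, by rwa [pow_add (conjMap ρ g - 1), Module.End.mul_apply]⟩
  obtain ⟨N, hN⟩ := exists_augment_pow_eq_bot ρ hD
  intro x hx
  obtain ⟨k, hk⟩ := hdown N x hx
  exact ⟨k, (Submodule.eq_bot_iff _).1 hN _ hk⟩

omit [CharZero K] in
/-- A slope is a quotient of two eigenvalues. -/
theorem exists_eigenvalue_quotient {g : H} {α : K} {x : Module.End K V} (hx : x ≠ 0)
    (hg : conjMap ρ g x = α • x) :
    ∃ a b : K, (ρ g).HasEigenvalue a ∧ (ρ g).HasEigenvalue b ∧ a = α * b := by
  have hgx : ρ g * x = α • (x * ρ g) := by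
    rw [conjMap_apply] at hg
    rw [← smul_mul_assoc, ← hg, mul_assoc (ρ g * x), rep_inv_mul, mul_one]
  obtain ⟨b, hb⟩ : ∃ b, ¬ (ρ g).maxGenEigenspace b ≤ LinearMap.ker x := by
    by_contra! h
    refine hx (LinearMap.ker_eq_top.1 (eq_top_iff.2 ?_))
    rw [← (ρ g).iSup_maxGenEigenspace_eq_top]
    exact iSup_le h
  obtain ⟨y, hy, hxy⟩ := SetLike.not_le_iff_exists.1 hb
  obtain ⟨k, hk⟩ := (Module.End.mem_maxGenEigenspace _ _ _).1 hy
  induction k generalizing y with
  | zero =>
    refine absurd ?_ hxy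
    rw [pow_zero, Module.End.one_apply] at hk
    rw [hk]
    exact zero_mem _
  | succ k ih =>
    set z := (ρ g - b • 1 : Module.End K V) y
    have hz : ((ρ g - b • 1) ^ k) z = 0 := by rwa [pow_succ, Module.End.mul_apply] at hk
    by_cases hzx : z ∈ LinearMap.ker x
    · refine ⟨α * b, b, Module.End.hasEigenvalue_of_hasEigenvector
        ⟨?_, show x y ≠ 0 from hxy⟩,
        (Module.End.hasUnifEigenvalue_iff_hasUnifEigenvalue_one WithTop.top_pos).1
          (show (ρ g).maxGenEigenspace b ≠ ⊥ from
            fun h0 => hxy (by rw [(Submodule.eq_bot_iff _).1 h0 y hy]; exact zero_mem _)), rfl⟩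
      rw [Module.End.mem_eigenspace_iff, ← Module.End.mul_apply, hgx, LinearMap.smul_apply,
        Module.End.mul_apply, mul_smul]
      congr 1
      have h3 : ρ g y = z + b • y := by simp [z]
      rw [h3, map_add, LinearMap.mem_ker.1 hzx, zero_add, map_smul]
    · exact ih z ((Module.End.mem_maxGenEigenspace _ _ _).2 ⟨k, hz⟩) hzx hz

end FA.LinearGrowth

end
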