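import Fermat.Agent.LinearGrowth.Blocks
import Mathlib.Algebra.Group.Pointwise.Set.Basic
import Mathlib.Algebra.Group.Pointwise.Set.Finite
import Mathlib.Algebra.Group.Pointwise.Finset.Basic
import Mathlib.Algebra.BigOperators.Group.Finset.Basic
import Mathlib.GroupTheory.Nilpotent
import Mathlib.Data.Real.Basic
import Mathlib.Data.Set.Card

/-!
# Polynomial growth and nilpotence from the blocks

A product of `n` elements has a character value determined by the multiplicities and a unipotent
part which is a combination of the products of fewer than `d` factors `u t - 1` with coefficients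
at most `(n + 1) ^ d`: polynomially many possibilities on each block. The lower central series is
lowered by the powers of the span.
-/

set_option autoImplicit false

noncomputable section

open FA.TitsAlternative
open scoped Pointwise commutatorElement

namespace FA.LinearGrowth

/-- At most polynomially many values at products of `n` elements of a finite set. -/
def HasPolyImage {H X : Type*} [Monoid H] (f : H → X) : Prop :=
  ∀ T : Set H, T.Finite → ∃ C d : ℕ, ∀ n : ℕ, ∃ A : Finset X, A.card ≤ C * (n + 1) ^ d ∧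
    ∀ x ∈ T ^ n, f x ∈ A

theorem HasPolyImage.prod {H X Y : Type*} [Monoid H] {f : H → X} {g : H → Y}
    (hf : HasPolyImage f) (hg : HasPolyImage g) : HasPolyImage fun x => (f x, g x) := by
  intro T hT
  obtain ⟨C, d, h1⟩ := hf T hT
  obtain ⟨C', d', h2⟩ := hg T hT
  refine ⟨C * C', d + d', fun n => ?_⟩
  obtain ⟨A, hA, hAm⟩ := h1 n
  obtain ⟨B, hB, hBm⟩ := h2 n
  refine ⟨A ×ˢ B, ?_, fun x hx => Finset.mem_product.2 ⟨hAm x hx, hBm x hx⟩⟩
  rw [Finset.card_product]
  calc A.card * B.card ≤ C * (n + 1) ^ d * (C' * (n + 1) ^ d') := Nat.mul_le_mul hA hB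
    _ = _ := by ring

theorem HasPolyImage.of_comp {H X Y : Type*} [Monoid H] {f : H → X} {g : H → Y}
    (hf : HasPolyImage f) (h : ∃ k : X → Y, ∀ x, g x = k (f x)) : HasPolyImage g := by
  classical
  intro T hT
  obtain ⟨C, d, h1⟩ := hf T hT
  obtain ⟨k, hk⟩ := h
  refine ⟨C, d, fun n => ?_⟩
  obtain ⟨A, hA, hAm⟩ := h1 n
  exact ⟨A.image k, Finset.card_image_le.trans hA,
    fun x hx => hk x ▸ Finset.mem_image_of_mem k (hAm x hx)⟩

theorem hasPolyImage_pi {H ι : Type*} [Monoid H] {X : ι → Type*} (f : ∀ i, H → X i) (s : Finset ι)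
    (hf : ∀ i ∈ s, HasPolyImage (f i)) : HasPolyImage fun x => (fun i : s => f i x) := by
  classical
  induction s using Finset.induction with
  | empty =>
    intro T _
    refine ⟨1, 0, fun n => ⟨{fun i => absurd i.2 (Finset.notMem_empty _)}, by simp, fun x _ =>
      Finset.mem_singleton.2 (funext fun i => absurd i.2 (Finset.notMem_empty _))⟩⟩
  | insert a s ha ih =>
    refine ((hf a (Finset.mem_insert_self a s)).prod
      (ih fun i hi => hf i (Finset.mem_insert_of_mem hi))).of_comp
      ⟨fun q i => if h : (i : ι) = a then cast (congrArg X h.symm) q.1 else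
        q.2 ⟨i, (Finset.mem_insert.1 i.2).resolve_left h⟩, fun x => funext fun i => ?_⟩
    dsimp only
    split_ifs with h
    · obtain ⟨i, hi⟩ := i
      obtain rfl : i = a := h
      rfl
    · rfl

/-- Homomorphisms to commutative monoids. -/
theorem hasPolyImage_comm {H M : Type*} [Monoid H] [CommMonoid M] (χ : H →* M) :
    HasPolyImage χ := by
  classical
  intro T hT
  refine ⟨1, hT.toFinset.card, fun n => ⟨(Finset.univ : Finset (hT.toFinset → Fin (n + 1))).image
    (fun c => ∏ t : hT.toFinset, χ t ^ (c t : ℕ)), ?_, ?_⟩⟩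
  · refine Finset.card_image_le.trans ?_
    simp
  induction n with
  | zero =>
    intro x hx
    rw [pow_zero, Set.mem_one] at hx
    subst hx
    exact Finset.mem_image.2 ⟨fun _ => 0, Finset.mem_univ _, by simp⟩
  | succ n ih =>
    intro x hx
    rw [pow_succ] at hx
    obtain ⟨y, hy, t, ht, rfl⟩ := hx
    obtain ⟨c, -, hc⟩ := Finset.mem_image.1 (ih y hy)
    set t' : hT.toFinset := ⟨t, hT.mem_toFinset.2 ht⟩
    refine Finset.mem_image.2 ⟨fun s => ⟨(c s : ℕ) + if s = t' then 1 else 0,
      by have := (c s).2; split_ifs <;> omega⟩, Finset.mem_univ _, ?_⟩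
    rw [map_mul, ← hc]
    simp only [pow_add, Finset.prod_mul_distrib]
    congr 1
    rw [Finset.prod_eq_single t' (fun s _ hs => by rw [if_neg hs, pow_zero]) (by simp), if_pos rfl,
      pow_one]

/-- A sum of at most `B` members of a finite set. -/
def IsSum {R : Type*} [AddCommMonoid R] (M : Finset R) (B : ℕ) (a : R) : Prop :=
  ∃ s : Multiset R, Multiset.card s ≤ B ∧ (∀ m ∈ s, m ∈ M) ∧ s.sum = a

theorem IsSum.add {R : Type*} [AddCommMonoid R] {M : Finset R} {B B' : ℕ} {a a' : R}
    (h : IsSum M B a) (h' : IsSum M B' a') : IsSum M (B + B') (a + a') := by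
  obtain ⟨s, hs, hm, rfl⟩ := h
  obtain ⟨s', hs', hm', rfl⟩ := h'
  refine ⟨s + s', by rw [Multiset.card_add]; omega, fun m h => ?_, Multiset.sum_add s s'⟩
  exact (Multiset.mem_add.1 h).elim (hm m) (hm' m)

theorem IsSum.mono {R : Type*} [AddCommMonoid R] {M : Finset R} {B B' : ℕ} {a : R}
    (h : IsSum M B a) (hB : B ≤ B') : IsSum M B' a := by
  obtain ⟨s, hs, hm, rfl⟩ := h
  exact ⟨s, hs.trans hB, hm, rfl⟩

theorem IsSum.mul_right {R : Type*} [NonUnitalNonAssocSemiring R] {M M' : Finset R} {B : ℕ}
    {a b : R} (h : IsSum M B a) (hb : ∀ m ∈ M, m * b ∈ M') : IsSum M' B (a * b) := by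
  obtain ⟨s, hs, hm, rfl⟩ := h
  refine ⟨s.map (· * b), by simpa using hs, fun m h => ?_,
    by rw [Multiset.sum_map_mul_right, Multiset.map_id']⟩
  obtain ⟨m', hm', rfl⟩ := Multiset.mem_map.1 h
  exact hb m' (hm m' hm')

/-- There are few such sums. -/
theorem exists_finset_isSum {R : Type*} [AddCommMonoid R] (M : Finset R) (B : ℕ) :
    ∃ A : Finset R, A.card ≤ (B + 1) ^ M.card ∧ ∀ a, IsSum M B a → a ∈ A := by
  classical
  refine ⟨(Finset.univ : Finset (M → Fin (B + 1))).image fun c => ∑ m : M, (c m : ℕ) • (m : R),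
    Finset.card_image_le.trans (by simp), fun a ha => ?_⟩
  obtain ⟨s, hs, hm, rfl⟩ := ha
  refine Finset.mem_image.2 ⟨fun m => ⟨s.count (m : R),
    Nat.lt_succ_of_le ((Multiset.count_le_card _ _).trans hs)⟩, Finset.mem_univ _, ?_⟩
  show ∑ m : M, s.count (m : R) • (m : R) = s.sum
  rw [M.sum_coe_sort (fun m => s.count m • m)]
  exact (Finset.sum_multiset_count_of_subset s M
    fun m hm' => hm m (Multiset.mem_toFinset.1 hm')).symm

variable {K : Type*} [Field K] [CharZero K] {W : Type*} [AddCommGroup W] [Module K W]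
  [FiniteDimensional K W] {H : Type*} [Group H]

/-- Unipotent representations. -/
theorem hasPolyImage_unipotent (u : H →* Module.End K W) (hu : ∀ g, IsNilpotent (u g - 1)) :
    HasPolyImage u := by
  classical
  obtain ⟨N, hN⟩ := exists_augment_pow_eq_bot u (D := ⊤) fun g _ => hu g
  intro T hT
  set NT : Finset (Module.End K W) := hT.toFinset.image fun t => u t - 1
  have hNT : ∀ m ∈ NT ^ (N + 1), m = 0 := fun m hm => by
    have : ∀ j, ∀ m ∈ NT ^ (j + 1), m ∈ augment u ⊤ ^ (j + 1) := fun j => by
      induction j with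
      | zero =>
        intro m hm
        rw [pow_one] at hm ⊢
        obtain ⟨t, -, rfl⟩ := Finset.mem_image.1 hm
        exact Submodule.subset_span ⟨⟨t, Subgroup.mem_top t⟩, rfl⟩
      | succ j ih =>
        intro m hm
        rw [pow_succ, Finset.mem_mul] at hm
        obtain ⟨a, ha, b, hb, rfl⟩ := hm
        obtain ⟨t, -, rfl⟩ := Finset.mem_image.1 hb
        rw [pow_succ]
        exact Submodule.mul_mem_mul (ih a ha) (Submodule.subset_span ⟨⟨t, Subgroup.mem_top t⟩, rfl⟩)
    exact (Submodule.eq_bot_iff _).1 hN m (this N m hm)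
  have key : ∀ n : ℕ, ∀ x ∈ T ^ n, ∃ f : ℕ → Module.End K W,
      (∀ j, IsSum (NT ^ j) ((n + 1) ^ j) (f j)) ∧ u x = ∑ j ∈ Finset.range (N + 1), f j := by
    intro n
    induction n with
    | zero =>
      intro x hx
      rw [pow_zero, Set.mem_one] at hx
      subst hx
      refine ⟨fun j => if j = 0 then 1 else 0, fun j => ?_, ?_⟩
      · rcases j with _ | j
        · exact ⟨{1}, by simp, by simp, by simp⟩
        · exact ⟨0, by simp, by simp, by simp⟩
      · simp [Finset.sum_ite_eq']
    | succ n ih =>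
      intro x hx
      rw [pow_succ] at hx
      obtain ⟨y, hy, t, ht, rfl⟩ := hx
      obtain ⟨f, hf, hfy⟩ := ih y hy
      have htNT : u t - 1 ∈ NT := Finset.mem_image.2 ⟨t, hT.mem_toFinset.2 ht, rfl⟩
      refine ⟨fun j => f j + if j = 0 then 0 else f (j - 1) * (u t - 1), fun j => ?_, ?_⟩
      · rcases j with _ | j
        · simpa using hf 0
        · refine ((hf (j + 1)).add (((hf j).mul_right (M' := NT ^ (j + 1)) fun m hm => ?_))).mono ?_
          · rw [pow_succ]
            exact Finset.mul_mem_mul hm htNT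
          · have h1 : (n + 1) ^ j ≤ (n + 2) ^ j := Nat.pow_le_pow_left (by omega) j
            calc (n + 1) ^ (j + 1) + (n + 1) ^ j = (n + 1) ^ j * (n + 2) := by ring
              _ ≤ (n + 2) ^ j * (n + 2) := Nat.mul_le_mul_right _ h1
              _ = (n + 1 + 1) ^ (j + 1) := (pow_succ _ _).symm
      · have h0 : f N * (u t - 1) = 0 := by
          obtain ⟨s, -, hs, hsum⟩ := (hf N).mul_right (M' := NT ^ (N + 1)) fun m hm => by
            rw [pow_succ]
            exact Finset.mul_mem_mul hm htNT
          rw [← hsum]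
          exact Multiset.sum_eq_zero fun m hm => hNT m (hs m hm)
        have hsum : ∑ j ∈ Finset.range (N + 1), (if j = 0 then 0 else f (j - 1) * (u t - 1)) =
            ∑ j ∈ Finset.range (N + 1), f j * (u t - 1) := by
          rw [Finset.sum_range_succ' _ N, Finset.sum_range_succ _ N, h0, if_pos rfl]
          simp
        rw [map_mul, hfy, Finset.sum_add_distrib, hsum, ← Finset.sum_mul, mul_sub, mul_one,
          add_sub_cancel]
  set M : Finset (Module.End K W) := (Finset.range (N + 1)).biUnion fun j => NT ^ j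
  refine ⟨(N + 2) ^ M.card, N * M.card, fun n => ?_⟩
  obtain ⟨A, hA, hAm⟩ := exists_finset_isSum M ((N + 1) * (n + 1) ^ N)
  refine ⟨A, hA.trans ?_, fun x hx => hAm _ ?_⟩
  · rw [pow_mul, ← mul_pow]
    refine Nat.pow_le_pow_left ?_ _
    have h1 : 1 ≤ (n + 1) ^ N := Nat.one_le_pow _ _ (by omega)
    nlinarith
  · obtain ⟨f, hf, hfx⟩ := key n x hx
    rw [hfx]
    have : ∀ k ≤ N + 1, IsSum M (k * (n + 1) ^ N) (∑ j ∈ Finset.range k, f j) := fun k => by
      induction k with
      | zero => exact fun _ => ⟨0, by simp, by simp, by simp⟩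
      | succ k ihk =>
        intro hk
        rw [Finset.sum_range_succ, Nat.succ_mul]
        refine (ihk (by omega)).add ?_
        obtain ⟨s, hs, hm, hsum⟩ := hf k
        exact ⟨s, hs.trans (Nat.pow_le_pow_right (by omega) (by omega)),
          fun m hms => Finset.mem_biUnion.2 ⟨k, Finset.mem_range.2 (by omega), hm m hms⟩, hsum⟩
    exact this (N + 1) le_rfl

/-- Unipotent representations kill a term of the lower central series. -/
theorem exists_lowerCentralSeries_map_eq_one (u : H →* Module.End K W)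
    (hu : ∀ g, IsNilpotent (u g - 1)) :
    ∃ k, ∀ g ∈ Subgroup.lowerCentralSeries (⊤ : Subgroup H) k, u g = 1 := by
  obtain ⟨N, hN⟩ := exists_augment_pow_eq_bot u (D := ⊤) fun g _ => hu g
  set J := augment u ⊤
  have hJ : ∀ g, u g - 1 ∈ J := fun g => Submodule.subset_span ⟨⟨g, Subgroup.mem_top g⟩, rfl⟩
  have hright : ∀ i, ∀ a ∈ J ^ (i + 1), ∀ g, a * u g ∈ J ^ (i + 1) := fun i a ha g => by
    rw [show a * u g = a + a * (u g - 1) by rw [mul_sub, mul_one, add_sub_cancel]]
    refine add_mem ha (augment_pow_le u ⊤ (Nat.le_add_left 1 i) (Nat.le_add_right _ 1) ?_)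
    rw [pow_succ _ (i + 1)]
    exact Submodule.mul_mem_mul ha (hJ g)
  refine ⟨N, fun g hg => sub_eq_zero.1 ((Submodule.eq_bot_iff _).1 hN _ ?_)⟩
  suffices h : ∀ i, ∀ g ∈ Subgroup.lowerCentralSeries (⊤ : Subgroup H) i, u g - 1 ∈ J ^ (i + 1) from
    h N g hg
  intro i
  induction i with
  | zero => intro g _; rw [pow_one]; exact hJ g
  | succ i ih =>
    let S : Subgroup H :=
      { carrier := {g | u g - 1 ∈ J ^ (i + 2)}
        one_mem' := by simp
        mul_mem' := fun {g h} (hg : u g - 1 ∈ J ^ (i + 2)) (hh : u h - 1 ∈ J ^ (i + 2)) => by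
          show u (g * h) - 1 ∈ J ^ (i + 2)
          rw [show u (g * h) - 1 = (u g - 1) * u h + (u h - 1) by
            rw [map_mul, sub_mul, one_mul]; abel]
          exact add_mem (hright _ _ hg h) hh
        inv_mem' := fun {g} (hg : u g - 1 ∈ J ^ (i + 2)) => by
          show u g⁻¹ - 1 ∈ J ^ (i + 2)
          rw [show u g⁻¹ - 1 = -((u g - 1) * u g⁻¹) by
            rw [sub_mul, one_mul, ← map_mul, mul_inv_cancel, map_one, neg_sub]]
          exact neg_mem (hright _ _ hg _) }
    rw [Subgroup.lowerCentralSeries_succ]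
    refine Subgroup.commutator_le (H₃ := S) |>.2 fun g hg h _ => ?_
    show u ⁅g, h⁆ - 1 ∈ J ^ (i + 2)
    have hm : (u g - 1) * (u h - 1) - (u h - 1) * (u g - 1) ∈ J ^ (i + 2) :=
      sub_mem (by rw [pow_succ _ (i + 1)]; exact Submodule.mul_mem_mul (ih g hg) (hJ h))
        (by rw [pow_succ' _ (i + 1)]; exact Submodule.mul_mem_mul (hJ h) (ih g hg))
    have e : u ⁅g, h⁆ - 1 =
        ((u g - 1) * (u h - 1) - (u h - 1) * (u g - 1)) * u (g⁻¹ * h⁻¹) := by
      have hid : (u g - 1) * (u h - 1) - (u h - 1) * (u g - 1) = u g * u h - u h * u g := by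
        rw [sub_mul, mul_sub, mul_sub, sub_mul, mul_sub, mul_sub]
        simp only [mul_one, one_mul]
        abel
      rw [hid, sub_mul, ← map_mul, ← map_mul, ← map_mul, ← map_mul, commutatorElement_def]
      congr 1
      · exact congrArg u (by group)
      · rw [← map_one u]
        exact congrArg u (by group)
    rw [e]
    exact hright _ _ hm _

section Blocks

variable [IsAlgClosed K] (ρ : H →* Module.End K W)
  (hD : ∀ d ∈ commutator H, IsNilpotent (ρ d - 1))

include hD in
/-- **Polynomially many products and a trivial term of the lower central series.** -/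
theorem poly_and_nilpotent (hA : IsAdUnipotent ρ) :
    HasPolyImage ρ ∧ ∃ k, ∀ g ∈ Subgroup.lowerCentralSeries (⊤ : Subgroup H) k, ρ g = 1 := by
  classical
  obtain ⟨Bl, hfin, hblock, hsup⟩ := exists_blocks ρ hD hA
  choose χ u hρ hu using fun P : Bl => (hblock P.1 P.2).exists_char ρ hD
  have : Finite Bl := hfin.to_subtype
  have := Fintype.ofFinite Bl
  have hext : ∀ g g', (∀ P : Bl, ∀ x : P.1, ρ g x = ρ g' x) → ρ g = ρ g' := fun g g' h => by
    refine LinearMap.ext fun x => ?_
    have hx : x ∈ sSup Bl := hsup ▸ Submodule.mem_top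
    rw [sSup_eq_iSup] at hx
    induction hx using Submodule.iSup_induction' with
    | mem P y hy =>
      by_cases hP : P ∈ Bl
      · rw [iSup_pos hP] at hy
        exact h ⟨P, hP⟩ ⟨y, hy⟩
      · rw [iSup_neg hP, Submodule.mem_bot] at hy
        rw [hy, map_zero, map_zero]
    | zero => rw [map_zero, map_zero]
    | add y z _ _ hy hz => rw [map_add, map_add, hy, hz]
  constructor
  · refine ((hasPolyImage_pi (fun P : Bl => fun g => χ P g) Finset.univ fun P _ =>
      hasPolyImage_comm (χ P)).prod (hasPolyImage_pi (fun P : Bl => fun g => u P g) Finset.univ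
        fun P _ => hasPolyImage_unipotent (u P) (hu P))).of_comp ⟨fun q =>
          if h : ∃ g, ∀ P : Bl, χ P g = q.1 ⟨P, Finset.mem_univ P⟩ ∧
            u P g = q.2 ⟨P, Finset.mem_univ P⟩ then ρ h.choose else 1, fun g => ?_⟩
    have h : ∃ g', ∀ P : Bl, χ P g' = χ P g ∧ u P g' = u P g := ⟨g, fun P => ⟨rfl, rfl⟩⟩
    dsimp only
    rw [dif_pos h]
    exact hext _ _ fun P x => by
      rw [hρ P g x, hρ P h.choose x, (h.choose_spec P).1, (h.choose_spec P).2]
  · choose k hk using fun P : Bl => exists_lowerCentralSeries_map_eq_one (u P) (hu P)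
    refine ⟨(∑ P, k P) + 1, fun g hg => ?_⟩
    rw [← map_one ρ]
    refine hext g 1 fun P x => ?_
    have h1 : u P g = 1 := hk P g (Subgroup.lowerCentralSeries_antitone (⊤ : Subgroup H)
      ((Finset.single_le_sum (f := k) (fun Q _ => Nat.zero_le _) (Finset.mem_univ P)).trans
        (Nat.le_succ _)) hg)
    have h2 : χ P g = 1 := by
      have hc : g ∈ commutator H := by
        have h3 := Subgroup.lowerCentralSeries_antitone (⊤ : Subgroup H)
          (show 1 ≤ (∑ P, k P) + 1 by omega) hg
        rwa [Subgroup.lowerCentralSeries_succ, Subgroup.lowerCentralSeries_zero] at h3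
      exact congrArg Units.val (MonoidHom.mem_ker.1
        (Abelianization.commutator_subset_ker (χ P).toHomUnits hc))
    rw [hρ P g x, h1, h2, map_one, one_smul, Module.End.one_apply, Module.End.one_apply]

end Blocks

end FA.LinearGrowth

end
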