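import Mathlib.Algebra.Group.Pointwise.Set.Basic
import Mathlib.Algebra.Group.Pointwise.Set.Card
import Mathlib.Algebra.Group.Pointwise.Set.Finite
import Mathlib.Algebra.Group.Pointwise.Set.BigOperators
import Mathlib.Algebra.Group.Submonoid.Membership
import Mathlib.Analysis.SpecialFunctions.Pow.Real
import Mathlib.Data.Set.Card
import Mathlib.GroupTheory.FreeGroup.Reduce
import Mathlib.GroupTheory.Index
import Mathlib.Analysis.SpecificLimits.Normed

/-!
# Growth of groups

The ball of radius `n` of a finite set with `1` is its `n`-th power. Exponential growth follows from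
`2 ^ m` distinct products of length `O(m)`, as in a group with a free subgroup; a polynomial bound
passes from a subgroup of finite index to the group.
-/

set_option autoImplicit false

noncomputable section

open scoped Pointwise
open Filter

namespace FA.LinearGrowth

variable {G : Type*} [Group G]

/-- The balls grow at most like a power of the radius. -/
def HasPolyGrowth (S : Set G) : Prop := ∃ C d : ℕ, ∀ n : ℕ, (S ^ n).ncard ≤ C * (n + 1) ^ d

/-- The balls grow at least like a geometric sequence. -/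
def HasExpGrowth (S : Set G) : Prop := ∃ c : ℝ, 1 < c ∧ ∀ n : ℕ, c ^ n ≤ ((S ^ n).ncard : ℝ)

theorem finite_pow {S : Set G} (hS : S.Finite) : ∀ n : ℕ, (S ^ n).Finite
  | 0 => by rw [pow_zero]; exact Set.finite_one
  | n + 1 => by rw [pow_succ]; exact (finite_pow hS n).mul hS

theorem exists_mem_pow {S : Set G} (hS : Submonoid.closure S = ⊤) (g : G) :
    ∃ n, g ∈ S ^ n := by
  have hg : g ∈ Submonoid.closure S := hS ▸ Submonoid.mem_top g
  induction hg using Submonoid.closure_induction with
  | mem x hx => exact ⟨1, by rwa [pow_one]⟩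
  | one => exact ⟨0, by simp⟩
  | mul x y _ _ hx hy =>
    obtain ⟨m, hm⟩ := hx
    obtain ⟨n, hn⟩ := hy
    exact ⟨m + n, pow_add S m n ▸ Set.mul_mem_mul hm hn⟩

theorem exists_mem_pow_finset {S : Set G} (h1 : (1 : G) ∈ S) (hS : Submonoid.closure S = ⊤)
    (A : Finset G) : ∃ L, 0 < L ∧ ∀ g ∈ A, g ∈ S ^ L := by
  classical
  induction A using Finset.induction with
  | empty => exact ⟨1, one_pos, by simp⟩
  | insert a A _ ih =>
    obtain ⟨L, hL, hA⟩ := ih
    obtain ⟨m, hm⟩ := exists_mem_pow hS a
    refine ⟨L + m, by omega, fun g hg => ?_⟩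
    rcases Finset.mem_insert.1 hg with rfl | hg
    · exact Set.pow_subset_pow_right h1 (by omega) hm
    · exact Set.pow_subset_pow_right h1 (by omega) (hA g hg)

/-- Many distinct short products give exponential growth. -/
theorem hasExpGrowth_of_words {S : Set G} (hfin : S.Finite) (h1 : (1 : G) ∈ S) {L : ℕ} (hL : 0 < L)
    (w : List Bool → G) (hlen : ∀ l, w l ∈ S ^ (L * l.length))
    (hw : ∀ l l', l.length = l'.length → w l = w l' → l = l') : HasExpGrowth S := by
  classical
  have hbig : ∀ m, 2 ^ m ≤ (S ^ (L * m)).ncard := fun m => by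
    have hf : Function.Injective fun ε : Fin m → Bool => w (List.ofFn ε) := fun a b h =>
      List.ofFn_injective (hw _ _ (by simp) h)
    calc 2 ^ m = (Set.range fun ε : Fin m → Bool => w (List.ofFn ε)).ncard := by
          rw [Set.ncard_range_of_injective hf]
          simp
      _ ≤ _ := Set.ncard_le_ncard (by
          rintro _ ⟨ε, rfl⟩
          have h := hlen (List.ofFn ε)
          rwa [List.length_ofFn] at h) (finite_pow hfin _)
  refine ⟨(2 : ℝ) ^ ((2 * L : ℕ) : ℝ)⁻¹, Real.one_lt_rpow one_lt_two (by positivity), fun n => ?_⟩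
  rw [← Real.rpow_natCast, ← Real.rpow_mul zero_le_two]
  rcases Nat.eq_zero_or_pos n with rfl | hn
  · simp [← Set.singleton_one]
  rcases lt_or_ge n L with hnL | hnL
  · have h2 : 2 ≤ (S ^ n).ncard := by
      have h2 : 2 ≤ S.ncard := by
        by_contra! h
        have hS : S = {1} := ((Set.ncard_le_one_iff_subset_singleton hfin).1 (by omega)).elim
          fun a ha => (Set.eq_singleton_iff_unique_mem).2 ⟨h1, fun x hx =>
            (Set.mem_singleton_iff.1 (ha hx)).trans (Set.mem_singleton_iff.1 (ha h1)).symm⟩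
        have hb := hbig 1
        rw [hS] at hb
        simp at hb
      exact h2.trans (Set.ncard_le_ncard (Set.subset_pow h1 hn.ne') (finite_pow hfin _))
    calc (2 : ℝ) ^ (((2 * L : ℕ) : ℝ)⁻¹ * (n : ℝ)) ≤ (2 : ℝ) ^ (1 : ℝ) := by
          refine Real.rpow_le_rpow_of_exponent_le one_le_two ?_
          rw [inv_mul_le_one₀ (by positivity)]
          exact_mod_cast (by omega : n ≤ 2 * L)
      _ ≤ _ := by rw [Real.rpow_one]; exact_mod_cast h2
  · set m := n / L
    have hm : n ≤ 2 * L * m := by
      have h3 := Nat.div_add_mod n L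
      have h4 := Nat.mod_lt n hL
      have h5 : 1 ≤ m := (Nat.one_le_div_iff hL).2 hnL
      have h6 : L * 1 ≤ L * m := Nat.mul_le_mul_left L h5
      calc n = L * m + n % L := h3.symm
        _ ≤ L * m + L * m := by omega
        _ = 2 * L * m := by ring
    calc (2 : ℝ) ^ (((2 * L : ℕ) : ℝ)⁻¹ * (n : ℝ)) ≤ (2 : ℝ) ^ (m : ℝ) := by
          refine Real.rpow_le_rpow_of_exponent_le one_le_two ?_
          rw [inv_mul_le_iff₀ (by positivity)]
          exact_mod_cast hm
      _ = ((2 ^ m : ℕ) : ℝ) := by rw [Real.rpow_natCast]; push_cast; rfl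
      _ ≤ _ := by
          exact_mod_cast (hbig m).trans (Set.ncard_le_ncard
            (Set.pow_subset_pow_right h1 (Nat.mul_div_le n L)) (finite_pow hfin _))

/-- A free subgroup gives exponential growth. -/
theorem hasExpGrowth_of_free {S : Set G} (hfin : S.Finite) (h1 : (1 : G) ∈ S)
    (hS : Submonoid.closure S = ⊤) {f : FreeGroup (Fin 2) →* G} (hf : Function.Injective f) :
    HasExpGrowth S := by
  classical
  obtain ⟨L, hL, hA⟩ := exists_mem_pow_finset h1 hS {f (FreeGroup.of 0), f (FreeGroup.of 1)}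
  let pos : List Bool → FreeGroup (Fin 2) := fun l =>
    FreeGroup.mk (l.map fun b => (cond b 1 0, true))
  refine hasExpGrowth_of_words hfin h1 hL (fun l => f (pos l)) (fun l => ?_) fun l l' _ h => ?_
  · induction l with
    | nil =>
      show f (FreeGroup.mk []) ∈ S ^ (L * 0)
      rw [Nat.mul_zero, pow_zero, Set.mem_one, ← FreeGroup.one_eq_mk, map_one]
    | cons b l ih =>
      have e : pos (b :: l) = FreeGroup.of (cond b 1 0) * pos l := by
        simp [pos, FreeGroup.of, FreeGroup.mul_mk]
      simp only [e, map_mul, List.length_cons, Nat.mul_succ, add_comm (L * l.length), pow_add]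
      refine Set.mul_mem_mul (hA _ ?_) ih
      cases b <;> simp
  · have h2 := congrArg FreeGroup.toWord (hf h)
    have hred : ∀ l : List Bool, FreeGroup.toWord (pos l) = l.map fun b => (cond b 1 0, true) := by
      intro l
      rw [FreeGroup.toWord_mk]
      refine FreeGroup.isReduced_iff_reduce_eq.1 (List.isChain_iff_getElem.2 fun i hi => ?_)
      simp
    rw [hred, hred] at h2
    exact List.map_injective_iff.2 (fun a b h => by cases a <;> cases b <;> simp_all) h2

/-- A polynomial bound passes from a subgroup of finite index to the group. -/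
theorem hasPolyGrowth_of_finiteIndex (H : Subgroup G) [H.FiniteIndex]
    (hH : ∀ T : Set H, T.Finite → HasPolyGrowth T) {S : Set G} (hfin : S.Finite) :
    HasPolyGrowth S := by
  classical
  have : Finite (G ⧸ H) := Subgroup.finite_quotient_of_finiteIndex
  let R : G ⧸ H → G := fun q => q.out
  -- representatives of the right cosets
  let rep : G → G := fun g => (R (g⁻¹ : G))⁻¹
  have hrep : ∀ g, g * (rep g)⁻¹ ∈ H := fun g => by
    show g * (R (g⁻¹ : G))⁻¹⁻¹ ∈ H
    rw [inv_inv, ← inv_inv g, ← QuotientGroup.eq, inv_inv]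
    exact (QuotientGroup.out_eq' _).symm
  have hrange : (Set.range rep).Finite :=
    (Set.finite_range fun q => (R q)⁻¹).subset (by rintro _ ⟨g, rfl⟩; exact ⟨_, rfl⟩)
  set T₀ : Set H := Subtype.val ⁻¹'
    ((insert 1 (Set.range rep)) * (insert 1 S) * (insert 1 (Set.range rep))⁻¹)
  have hT₀ : T₀.Finite := Set.Finite.preimage Subtype.val_injective.injOn
    (((hrange.insert _).mul (hfin.insert _)).mul (hrange.insert _).inv)
  obtain ⟨C, d, hC⟩ := hH T₀ hT₀
  refine ⟨C * (insert 1 (Set.range rep)).ncard, d, fun n => ?_⟩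
  have hsub : ∀ n : ℕ, S ^ n ⊆ (Subtype.val '' (T₀ ^ n)) * insert 1 (Set.range rep) := by
    intro n
    induction n with
    | zero =>
      intro x hx
      rw [pow_zero, Set.mem_one] at hx
      subst hx
      exact ⟨1, ⟨1, by simp, rfl⟩, 1, Set.mem_insert _ _, one_mul _⟩
    | succ n ih =>
      rintro _ ⟨x, hx, s, hs, rfl⟩
      obtain ⟨_, ⟨h, hh, rfl⟩, r, hr, rfl⟩ := ih hx
      refine ⟨(h : G) * (r * s * (rep (r * s))⁻¹), ⟨h * ⟨_, hrep (r * s)⟩, ?_, rfl⟩, rep (r * s),
        Set.mem_insert_of_mem _ ⟨_, rfl⟩, by group⟩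
      rw [pow_succ]
      refine Set.mul_mem_mul hh ?_
      exact ⟨r * s, Set.mul_mem_mul hr (Set.mem_insert_of_mem _ hs), (rep (r * s))⁻¹,
        Set.inv_mem_inv.2 (Set.mem_insert_of_mem _ ⟨_, rfl⟩), rfl⟩
  calc (S ^ n).ncard ≤ ((Subtype.val '' (T₀ ^ n)) * insert 1 (Set.range rep)).ncard :=
        Set.ncard_le_ncard (hsub n) (((finite_pow hT₀ _).image _).mul (hrange.insert _))
    _ ≤ (Subtype.val '' (T₀ ^ n)).ncard * (insert 1 (Set.range rep)).ncard := by
      simpa only [Nat.card_coe_set_eq] using Set.natCard_mul_le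
        (s := Subtype.val '' (T₀ ^ n)) (t := insert 1 (Set.range rep))
    _ ≤ C * (n + 1) ^ d * (insert 1 (Set.range rep)).ncard := Nat.mul_le_mul_right _
        ((Set.ncard_image_le (finite_pow hT₀ _)).trans (hC n))
    _ = _ := by ring

/-- Polynomial and exponential growth exclude each other. -/
theorem not_hasExpGrowth_of_hasPolyGrowth {S : Set G} (hp : HasPolyGrowth S) :
    ¬ HasExpGrowth S := by
  rintro ⟨c, hc, he⟩
  obtain ⟨C, d, hC⟩ := hp
  have ht := (tendsto_pow_const_mul_const_pow_of_abs_lt_one d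
    (show |c⁻¹| < 1 by rw [abs_inv, abs_of_pos (by linarith)]; exact inv_lt_one_of_one_lt₀ hc)).comp
      (tendsto_add_atTop_nat 1)
  have ht' := ht.const_mul ((C : ℝ) * c)
  rw [mul_zero] at ht'
  obtain ⟨n, hn⟩ := (ht'.eventually (eventually_lt_nhds one_pos)).exists
  have h1 : c ^ n ≤ (C : ℝ) * ((n : ℝ) + 1) ^ d := (he n).trans (by exact_mod_cast hC n)
  have h2 : (C : ℝ) * c * (((n : ℝ) + 1) ^ d * c⁻¹ ^ (n + 1)) < 1 := by
    simpa using hn
  have hc0 : (0 : ℝ) < c ^ n := by positivity
  rw [pow_succ, inv_pow] at h2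
  field_simp at h2
  linarith

end FA.LinearGrowth

end
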