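import Fermat.Agent.TitsAlternative.Main
import Fermat.Agent.TitsAlternative.Exclusive
import Fermat.Agent.LinearGrowth.Counting
import Fermat.Agent.LinearGrowth.Growth

/-!
# Growth of linear groups

Without a free subgroup a subgroup of finite index has unipotent derived group. A slope `α` there is
not a root of unity, so for an embedding off the unit circle products of conjugates of one element
by a high power give `2 ^ m` elements of length `O(m)`; they also contradict virtual nilpotence.
Without a slope the subgroup is nilpotent of polynomial growth.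
-/

set_option autoImplicit false
set_option linter.style.haveILetI false

noncomputable section

open FA.TitsAlternative
open scoped Pointwise commutatorElement

namespace FA.LinearGrowth

/-- Subset sums of a geometric sequence with small ratio are distinct. -/
theorem horner_injective {F : Type*} [NormedField F] {t : F} (ht0 : t ≠ 0) (ht : ‖t‖ < 4⁻¹) :
    ∀ l l' : List Bool, l.length = l'.length →
      l.foldr (fun b s => (if b then 1 else 0) + t * s) 0 =
        l'.foldr (fun b s => (if b then 1 else 0) + t * s) 0 → l = l' := by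
  have hbound : ∀ l : List Bool, ‖l.foldr (fun b s => (if b then 1 else 0) + t * s) 0‖ ≤ 2 :=
    fun l => by
      induction l with
      | nil => simp
      | cons b l ih =>
        rw [List.foldr_cons]
        refine (norm_add_le _ _).trans ?_
        rw [norm_mul]
        have h1 : ‖(if b then (1 : F) else 0)‖ ≤ 1 := by cases b <;> simp
        nlinarith [norm_nonneg t, norm_nonneg (l.foldr (fun b s => (if b then 1 else 0) + t * s) 0)]
  intro l
  induction l with
  | nil => intro l' h _; exact (List.length_eq_zero_iff.1 h.symm).symm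
  | cons b l ih =>
    intro l' hlen h
    rcases l' with _ | ⟨b', l'⟩
    · simp at hlen
    rw [List.foldr_cons, List.foldr_cons] at h
    have hb : b = b' := by
      by_contra hne
      set s := l.foldr (fun b s => (if b then 1 else 0) + t * s) 0
      set s' := l'.foldr (fun b s => (if b then 1 else 0) + t * s) 0
      have h1 : ‖t * (s' - s)‖ = 1 := by
        rw [show t * (s' - s) = (if b then (1 : F) else 0) - if b' then 1 else 0 by
          linear_combination -1 * h]
        cases b <;> cases b' <;> simp_all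
      rw [norm_mul] at h1
      nlinarith [norm_sub_le s' s, hbound l, hbound l', norm_nonneg t, norm_nonneg (s' - s)]
    subst hb
    rw [add_right_inj, mul_right_inj' ht0] at h
    rw [ih l' (by simpa using hlen) h]

variable {K : Type*} [Field K] [CharZero K] {V : Type*} [AddCommGroup V] [Module K V]
  {H : Type*} [Group H] (ρ : H →* Module.End K V) (l : Module.End K V →ₗ[K] K)

omit [CharZero K] in
/-- The form is additive on the derived group. -/
theorem form_rep_mul (hl : ∀ x ∈ span ρ ^ 2, l x = 0) {x y : H} (hx : x ∈ commutator H)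
    (hy : y ∈ commutator H) : l (ρ (x * y) - 1) = l (ρ x - 1) + l (ρ y - 1) := by
  have h : ρ (x * y) - 1 = (ρ x - 1) * (ρ y - 1) + (ρ x - 1) + (ρ y - 1) := by
    rw [map_mul, sub_mul, mul_sub, mul_sub, mul_one, one_mul, one_mul]
    abel
  have h2 : (ρ x - 1) * (ρ y - 1) ∈ span ρ ^ 2 := by
    rw [sq]
    exact Submodule.mul_mem_mul (rep_sub_one_mem_span ρ hx) (rep_sub_one_mem_span ρ hy)
  rw [h, map_add, map_add, hl _ h2, zero_add]

omit [CharZero K] in
/-- Powers of a slope. -/
theorem form_conj_pow {g : H} {α : K} (hg : ∀ x ∈ span ρ, l (conjMap ρ g x) = α * l x) (N : ℕ)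
    {x : Module.End K V} (hx : x ∈ span ρ) : l (conjMap ρ (g ^ N) x) = α ^ N * l x := by
  induction N generalizing x with
  | zero => rw [pow_zero, pow_zero, one_mul, conjMap_apply, inv_one, map_one, one_mul, mul_one]
  | succ N ih =>
    have h : conjMap ρ (g ^ (N + 1)) x = conjMap ρ (g ^ N) (conjMap ρ g x) := by
      simp only [conjMap_apply, pow_succ, map_mul, mul_inv_rev, mul_assoc]
    rw [h, ih (conjMap_mem_span ρ g hx), hg x hx, pow_succ, mul_assoc]

/-- The products of conjugates. -/
def slopeWord (g d : H) : List Bool → H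
  | [] => 1
  | b :: w => cond b d 1 * (g * slopeWord g d w * g⁻¹)

omit [CharZero K] in
theorem slopeWord_spec {g d : H} {α : K} (hd : d ∈ commutator H)
    (hl : ∀ x ∈ span ρ ^ 2, l x = 0) (hg : ∀ x ∈ span ρ, l (conjMap ρ g x) = α * l x)
    (w : List Bool) : slopeWord g d w ∈ commutator H ∧ l (ρ (slopeWord g d w) - 1) =
      w.foldr (fun b s => (if b then 1 else 0) + α * s) 0 * l (ρ d - 1) := by
  induction w with
  | nil => exact ⟨one_mem _, by simp [slopeWord]⟩
  | cons b w ih =>
    have h1 := (inferInstance : (commutator H).Normal).conj_mem _ ih.1 g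
    have h2 : l (ρ (g * slopeWord g d w * g⁻¹) - 1) = α * l (ρ (slopeWord g d w) - 1) := by
      rw [← conjMap_rep_sub_one, hg _ (rep_sub_one_mem_span ρ ih.1)]
    cases b
    · refine ⟨by simpa [slopeWord] using h1, ?_⟩
      show l (ρ (1 * (g * slopeWord g d w * g⁻¹)) - 1) = _
      rw [one_mul, h2, ih.2]
      simp [mul_assoc]
    · refine ⟨mul_mem hd h1, ?_⟩
      show l (ρ (d * (g * slopeWord g d w * g⁻¹)) - 1) = _
      rw [form_rep_mul ρ l hl hd h1, h2, ih.2]
      simp [add_mul, mul_assoc]

/-- **A slope off the roots of unity gives exponential growth.** -/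
theorem hasExpGrowth_of_slope {L : Type} [Field L] [CharZero L] {W : Type*} [AddCommGroup W]
    [Module L W] {G : Type*} [Group G] {H : Subgroup G} (σ : H →* Module.End L W)
    (m : Module.End L W →ₗ[L] L) {g d : H} {α : L} (hd : d ∈ commutator H) (hc : m (σ d - 1) ≠ 0)
    (hl : ∀ x ∈ span σ ^ 2, m x = 0) (hg : ∀ x ∈ span σ, m (conjMap σ g x) = α * m x)
    (hα0 : α ≠ 0) (hfin : ¬ IsOfFinOrder α) {S : Set G} (hS : S.Finite) (h1 : (1 : G) ∈ S)
    (hgen : Submonoid.closure S = ⊤) : HasExpGrowth S := by
  classical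
  set K₁ := Subfield.closure {α}
  have : Countable K₁ := Cardinal.mk_le_aleph0_iff.1
    ((Subfield.cardinalMk_closure_le_max {α}).trans (max_le (by simp) le_rfl))
  set z : K₁ := ⟨α, Subfield.subset_closure rfl⟩
  have hzfin : ¬ IsOfFinOrder z := fun h => hfin (K₁.subtype.toMonoidHom.isOfFinOrder h)
  have main : ∀ {F : Type} [NormedField F] (ι : K₁ →+* F) (g : H) (y : K₁), y ≠ 0 →
      (∀ x ∈ span σ, m (conjMap σ g x) = (y : L) * m x) → ‖ι y‖ < 1 → HasExpGrowth S := by
    intro F _ ι g y hy0 hy hlt
    obtain ⟨N, hN⟩ := exists_pow_lt_of_lt_one (show (0 : ℝ) < 4⁻¹ by norm_num) hlt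
    set g' := g ^ N
    obtain ⟨Λ, hΛ, hmem⟩ := exists_mem_pow_finset h1 hgen
      ({(d : G), (g' : G), ((g' : G))⁻¹} : Finset G)
    refine hasExpGrowth_of_words hS h1 (show 0 < 3 * Λ by omega)
      (fun w => ((slopeWord g' d w : H) : G)) (fun w => ?_) fun w w' hlen h => ?_
    · induction w with
      | nil => simp [slopeWord]
      | cons b w ih =>
        have e : 3 * Λ * (b :: w).length = Λ + (Λ + 3 * Λ * w.length + Λ) := by
          rw [List.length_cons]; ring
        simp only [e, slopeWord, Subgroup.coe_mul, Subgroup.coe_inv, pow_add]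
        refine Set.mul_mem_mul ?_ (Set.mul_mem_mul (Set.mul_mem_mul (hmem _ (by simp)) ih)
          (hmem _ (by simp)))
        cases b
        · exact Set.one_mem_pow h1
        · exact hmem _ (by simp)
    · have hpow : ∀ x ∈ span σ, m (conjMap σ g' x) = ((y ^ N : K₁) : L) * m x := fun x hx => by
        rw [form_conj_pow σ m hy N hx, SubmonoidClass.coe_pow]
      have e := congrArg (fun a : H => m (σ a - 1)) 
        (Subtype.ext h : slopeWord g' d w = slopeWord g' d w')
      simp only [(slopeWord_spec σ m hd hl hpow _).2, mul_eq_mul_right_iff, hc, or_false] at e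
      have hcoe : ∀ (t : K₁) (w : List Bool),
          w.foldr (fun b s => (if b then 1 else 0) + (t : L) * s) 0 =
            ((w.foldr (fun b s => (if b then 1 else 0) + t * s) 0 : K₁) : L) := fun t w => by
        induction w with
        | nil => simp
        | cons b w ih => cases b <;> simp [ih]
      have hι : ∀ (t : K₁) (w : List Bool),
          w.foldr (fun b s => (if b then 1 else 0) + ι t * s) 0 =
            ι (w.foldr (fun b s => (if b then 1 else 0) + t * s) 0) := fun t w => by
        induction w with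
        | nil => simp
        | cons b w ih => cases b <;> simp [ih]
      rw [hcoe, hcoe, Subtype.coe_inj] at e
      refine horner_injective (t := ι (y ^ N)) ((map_ne_zero ι).2 (pow_ne_zero _ hy0)) ?_ w w' hlen
        (by rw [hι, hι, e])
      rwa [map_pow, norm_pow]
  have hz0 : z ≠ 0 := fun h => hα0 (congrArg Subtype.val h)
  have key : ∀ {F : Type} [NormedField F] (ι : K₁ →+* F), ‖ι z‖ ≠ 1 → HasExpGrowth S := by
    intro F _ ι hι
    rcases lt_or_gt_of_ne hι with h | h
    · exact main ι g z hz0 hg h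
    · refine main ι g⁻¹ z⁻¹ (inv_ne_zero hz0) (fun x hx => ?_) ?_
      · have h3 := hg _ (conjMap_mem_span σ g⁻¹ hx)
        rw [conjMap_apply σ g, conjMap_apply σ g⁻¹, inv_inv, ← mul_assoc, ← mul_assoc, rep_mul_inv,
          one_mul, mul_assoc, rep_mul_inv, mul_one] at h3
        rw [show ((z⁻¹ : K₁) : L) = α⁻¹ from rfl, h3, conjMap_apply, inv_inv, ← mul_assoc,
          inv_mul_cancel₀ hα0, one_mul]
      · rw [map_inv₀, norm_inv]
        exact inv_lt_one_of_one_lt₀ h
  rcases exists_norm_ne_one hzfin with ⟨ι, hι⟩ | ⟨q, hq, ι, hι⟩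
  · exact key ι hι
  · exact key ι hι

omit [CharZero K] in
/-- **A slope that is not a root of unity forbids virtual nilpotence.** -/
theorem not_isVirtuallyNilpotent_of_slope {G : Type*} [Group G] {H : Subgroup G}
    (σ : H →* Module.End K V) (m : Module.End K V →ₗ[K] K) {g d : H} {α : K}
    (hd : d ∈ commutator H) (hc : m (σ d - 1) ≠ 0) (hl : ∀ x ∈ span σ ^ 2, m x = 0)
    (hg : ∀ x ∈ span σ, m (conjMap σ g x) = α * m x) (hfin : ¬ IsOfFinOrder α) :
    ¬ Group.IsVirtuallyNilpotent G := by
  rintro ⟨N, hN, hNfi⟩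
  obtain ⟨k, hk⟩ := (Subgroup.isNilpotent_iff_lowerCentralSeries N).1 hN
  obtain ⟨j, hj, -, hgj⟩ := N.normalCore.exists_pow_mem_of_index_ne_zero
    Subgroup.FiniteIndex.index_ne_zero (g : G)
  set a := g ^ j
  have ha : m (σ d - 1) ≠ 0 := hc
  have hαj : α ^ j - 1 ≠ 0 := fun h =>
    hfin (isOfFinOrder_iff_pow_eq_one.2 ⟨j, hj, sub_eq_zero.1 h⟩)
  have hstep : ∀ e ∈ commutator H,
      a * e * a⁻¹ * e⁻¹ ∈ commutator H ∧
        m (σ (a * e * a⁻¹ * e⁻¹) - 1) = (α ^ j - 1) * m (σ e - 1) := by
    intro e he
    have h1 := (inferInstance : (commutator H).Normal).conj_mem e he a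
    have h2 : m (σ e⁻¹ - 1) = -m (σ e - 1) := by
      have h := form_rep_mul σ m hl (inv_mem he) he
      rw [inv_mul_cancel, map_one, sub_self, map_zero] at h
      linear_combination -1 * h
    refine ⟨mul_mem h1 (inv_mem he), ?_⟩
    rw [form_rep_mul σ m hl h1 (inv_mem he), h2, ← conjMap_rep_sub_one,
      form_conj_pow σ m hg j (rep_sub_one_mem_span σ he)]
    ring
  have hseq : ∀ i, ∃ e ∈ commutator H, m (σ e - 1) ≠ 0 ∧ (e : G) ∈ N.lowerCentralSeries i := by
    have ha' : (a : G) ∈ N.normalCore := by rwa [SubmonoidClass.coe_pow]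
    intro i
    induction i with
    | zero =>
      obtain ⟨h1, h2⟩ := hstep d hd
      refine ⟨_, h1, h2 ▸ mul_ne_zero hαj ha, N.normalCore_le ?_⟩
      have h3 := (inferInstance : N.normalCore.Normal).conj_mem _ (inv_mem ha') (d : G)
      simpa [mul_assoc] using mul_mem ha' h3
    | succ i ih =>
      obtain ⟨e, he, hne, hmem⟩ := ih
      obtain ⟨h1, h2⟩ := hstep e he
      refine ⟨_, h1, h2 ▸ mul_ne_zero hαj hne, ?_⟩
      rw [Subgroup.lowerCentralSeries_succ, Subgroup.commutator_comm]
      have h3 := Subgroup.commutator_mem_commutator (N.normalCore_le ha') hmem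
      rw [commutatorElement_def] at h3
      simpa using h3
  obtain ⟨e, -, hne, hmem⟩ := hseq k
  rw [hk, Subgroup.mem_bot, OneMemClass.coe_eq_one] at hmem
  rw [hmem, map_one, sub_self, map_zero] at hne
  exact hne rfl

/-- **Either polynomial growth and a nilpotent subgroup of finite index, or exponential growth and
no such subgroup.** -/
theorem growth_dichotomy {K : Type*} [Field K] [CharZero K] {n : ℕ}
    {G : Subgroup (Matrix.GeneralLinearGroup (Fin n) K)} (hG : G.FG) :
    (Group.IsVirtuallyNilpotent G ∧ ∀ S : Set G, S.Finite → HasPolyGrowth S) ∨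
      (¬ Group.IsVirtuallyNilpotent G ∧ ∀ S : Set G, S.Finite → 1 ∈ S →
        Submonoid.closure S = ⊤ → HasExpGrowth S) := by
  classical
  rcases exists_unipotent_or_free hG with ⟨p, hp, ρ, hp2, hinj, H, hH, hev, hD⟩ | ⟨f, hf⟩
  swap
  · refine Or.inr ⟨fun ⟨N, hN, hfi⟩ => ?_, fun S hS h1 hgen => hasExpGrowth_of_free hS h1 hgen hf⟩
    have := hN
    exact not_free_and_virtually_solvable ⟨N, hfi, inferInstance⟩ ⟨f, hf⟩
  set σ := ρ.comp H.subtype
  have hD' : ∀ d ∈ commutator H, IsNilpotent (σ d - 1) := fun d hd =>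
    hD d (H.map_subtype_commutator ▸ Subgroup.mem_map_of_mem H.subtype hd)
  by_cases hs : HasSlope σ
  · right
    obtain ⟨g, α, m, hα1, ⟨x, -, hx0, hx⟩, hl, hg, d, hd, hc⟩ := hs
    obtain ⟨a, b, ha, hb, hab⟩ := exists_eigenvalue_quotient σ hx0 hx
    have ha' := hev g g.2 a ha
    have hb' := hev g g.2 b hb
    have hp1 : (p : ℝ)⁻¹ < 1 := inv_lt_one_of_one_lt₀ (by exact_mod_cast hp.out.one_lt)
    have hb1 : ‖b‖ = 1 := by
      rw [← sub_add_cancel b 1, IsUltrametricDist.norm_add_eq_max_of_norm_ne_norm
        (by rw [norm_one]; linarith), norm_one, max_eq_right (by linarith)]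
    have hα : ‖α - 1‖ ≤ (p : ℝ)⁻¹ := by
      have h : ‖(α - 1) * b‖ ≤ max ‖a - 1‖ ‖b - 1‖ := by
        rw [show (α - 1) * b = (a - 1) + -(b - 1) by rw [hab]; ring, ← norm_neg (b - 1)]
        exact IsUltrametricDist.norm_add_le_max _ _
      rw [norm_mul, hb1, mul_one] at h
      exact h.trans (max_le ha' hb')
    have hfin : ¬ IsOfFinOrder α := fun h => hα1 (eq_one_of_norm_sub_one_le hp2 hα h)
    have hα0 : α ≠ 0 := fun h0 => by
      rw [h0, zero_sub, norm_neg, norm_one] at hα
      linarith
    exact ⟨not_isVirtuallyNilpotent_of_slope σ m hd hc hl hg hfin, fun S hS h1 hgen =>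
      hasExpGrowth_of_slope σ m hd hc hl hg hα0 hfin hS h1 hgen⟩
  · left
    obtain ⟨hpoly, k, hk⟩ :=
      poly_and_nilpotent σ hD' (isAdUnipotent_of_not_hasSlope σ hD' hs)
    have hσinj : Function.Injective σ := hinj.comp H.subtype_injective
    refine ⟨⟨H, Subgroup.nilpotent_iff_lowerCentralSeries.2 ⟨k, (Subgroup.eq_bot_iff_forall _).2
      fun g hg => hσinj ((hk g hg).trans (map_one σ).symm)⟩, hH⟩, fun S hS => ?_⟩
    refine hasPolyGrowth_of_finiteIndex H (fun T hT => ?_) hS
    obtain ⟨C, e, hC⟩ := hpoly T hT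
    refine ⟨C, e, fun j => ?_⟩
    obtain ⟨A, hA, hAm⟩ := hC j
    calc (T ^ j).ncard = (σ '' (T ^ j)).ncard := (Set.ncard_image_of_injective _ hσinj).symm
      _ ≤ A.card := by
          rw [← Set.ncard_coe_finset]
          exact Set.ncard_le_ncard (Set.image_subset_iff.2 fun x hx => hAm x hx) A.finite_toSet
      _ ≤ _ := hA

end FA.LinearGrowth

end
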